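import Mathlib.RingTheory.MvPowerSeries.Basic
import Mathlib.RingTheory.MvPowerSeries.Inverse
import Mathlib.RingTheory.MvPowerSeries.Equiv
import Mathlib.RingTheory.Regular.RegularSequence
import Mathlib.RingTheory.DiscreteValuationRing.Basic

/-!
# The regular sequence `X₁, …, X_r, ϖ` in `𝒪⟦X₁, …, X_r⟧`
-/

set_option autoImplicit false
set_option linter.style.haveILetI false
set_option linter.unusedSectionVars false

namespace Fermat.Agent.Patching

open RingTheory.Sequence

variable {σ : Type*} {R : Type*} [CommRing R]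

theorem mem_ofList_X_iff (l : List σ) (f : MvPowerSeries σ R) :
    f ∈ Ideal.ofList (l.map (MvPowerSeries.X : σ → MvPowerSeries σ R)) ↔
      ∀ m : σ →₀ ℕ, (∀ i ∈ l, m i = 0) → MvPowerSeries.coeff m f = 0 := by
  classical
  induction l generalizing f with
  | nil =>
    simp only [List.map_nil, Ideal.ofList_nil, Ideal.mem_bot, List.not_mem_nil, false_implies,
      implies_true, forall_const]
    exact ⟨fun h => by simp [h], fun h => MvPowerSeries.ext (by simpa using h)⟩
  | cons a l ih =>
    rw [List.map_cons, Ideal.ofList_cons, Submodule.mem_sup]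
    constructor
    · rintro ⟨g, hg, h, hh, rfl⟩ m hm
      rw [map_add]
      have h1 : MvPowerSeries.coeff m g = 0 :=
        (MvPowerSeries.X_dvd_iff.mp (Ideal.mem_span_singleton.mp hg)) m (hm a (by simp))
      have h2 : MvPowerSeries.coeff m h = 0 :=
        (ih h).mp hh m (fun i hi => hm i (by simp [hi]))
      rw [h1, h2, add_zero]
    · intro hf
      let h : MvPowerSeries σ R := fun m => if m a = 0 then MvPowerSeries.coeff m f else 0
      have hh : ∀ m, MvPowerSeries.coeff m h = if m a = 0 then MvPowerSeries.coeff m f else 0 :=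
        fun m => rfl
      refine ⟨f - h, ?_, h, ?_, by ring⟩
      · rw [Ideal.mem_span_singleton, MvPowerSeries.X_dvd_iff]
        intro m hm
        rw [map_sub, hh, if_pos hm, sub_self]
      · rw [ih]
        intro m hm
        rw [hh]
        split_ifs with hma
        · apply hf
          intro i hi
          rcases List.mem_cons.mp hi with rfl | hi
          · exact hma
          · exact hm i hi
        · rfl

theorem isSMulRegular_quotient_iff {I : Ideal (MvPowerSeries σ R)} (x : MvPowerSeries σ R) :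
    IsSMulRegular (MvPowerSeries σ R ⧸ (I • ⊤ : Submodule (MvPowerSeries σ R) (MvPowerSeries σ R))) x ↔
      ∀ f, x * f ∈ I → f ∈ I := by
  have hI : (I • ⊤ : Submodule (MvPowerSeries σ R) (MvPowerSeries σ R)) = I := by simp
  rw [isSMulRegular_iff_right_eq_zero_of_smul]
  constructor
  · intro h f hf
    have := h (Submodule.Quotient.mk f) (by
      rw [← Submodule.Quotient.mk_smul, Submodule.Quotient.mk_eq_zero, hI]
      exact hf)
    rwa [Submodule.Quotient.mk_eq_zero, hI] at this
  · intro h f hf
    obtain ⟨f, rfl⟩ := Submodule.Quotient.mk_surjective _ f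
    rw [← Submodule.Quotient.mk_smul, Submodule.Quotient.mk_eq_zero, hI] at hf
    rw [Submodule.Quotient.mk_eq_zero, hI]
    exact h f hf

theorem isWeaklyRegular_X (l : List σ) (hl : l.Nodup) :
    IsWeaklyRegular (MvPowerSeries σ R) (l.map (MvPowerSeries.X : σ → MvPowerSeries σ R)) := by
  classical
  induction l using List.reverseRecOn with
  | nil => exact .nil _ _
  | append_singleton l a ih =>
    rw [List.map_append, isWeaklyRegular_append_iff]
    rw [List.nodup_append] at hl
    refine ⟨ih hl.1, ?_⟩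
    rw [List.map_singleton, isWeaklyRegular_singleton_iff, isSMulRegular_quotient_iff]
    intro f hf
    rw [mem_ofList_X_iff] at hf ⊢
    intro m hm
    have h1 := hf (m + Finsupp.single a 1) (by
      intro i hi
      have hia : a ≠ i := fun h => (hl.2.2 i hi a (by simp)) h.symm
      simp [hm i hi, hia])
    rw [add_comm m, MvPowerSeries.X, MvPowerSeries.coeff_add_monomial_mul, one_mul] at h1
    exact h1

section Fin

variable {r : ℕ}

/-- The sequence `X₁, …, X_r, ϖ`. -/
noncomputable def rs (r : ℕ) (ϖ : R) : List (MvPowerSeries (Fin r) R) :=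
  (List.finRange r).map (MvPowerSeries.X : Fin r → MvPowerSeries (Fin r) R) ++
    [algebraMap R (MvPowerSeries (Fin r) R) ϖ]

theorem length_rs (r : ℕ) (ϖ : R) : (rs r ϖ).length = r + 1 := by
  simp [rs]

theorem mem_ofList_X_finRange_iff (f : MvPowerSeries (Fin r) R) :
    f ∈ Ideal.ofList ((List.finRange r).map (MvPowerSeries.X : Fin r → MvPowerSeries (Fin r) R)) ↔
      MvPowerSeries.constantCoeff f = 0 := by
  rw [mem_ofList_X_iff]
  constructor
  · intro h
    exact h 0 (by simp)
  · intro h m hm
    have : m = 0 := Finsupp.ext fun i => hm i (List.mem_finRange i)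
    rw [this]
    exact h

theorem isWeaklyRegular_rs [IsDomain R] {ϖ : R} (hϖ : ϖ ≠ 0) :
    IsWeaklyRegular (MvPowerSeries (Fin r) R) (rs r ϖ) := by
  rw [rs, isWeaklyRegular_append_iff]
  refine ⟨isWeaklyRegular_X _ (List.nodup_finRange r), ?_⟩
  rw [isWeaklyRegular_singleton_iff, isSMulRegular_quotient_iff]
  intro f hf
  rw [mem_ofList_X_finRange_iff] at hf ⊢
  rw [map_mul, MvPowerSeries.algebraMap_apply, MvPowerSeries.constantCoeff_C] at hf
  simpa [hϖ] using hf

theorem mem_ofList_rs_iff {ϖ : R} (f : MvPowerSeries (Fin r) R) :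
    f ∈ Ideal.ofList (rs r ϖ) ↔ MvPowerSeries.constantCoeff f ∈ Ideal.span {ϖ} := by
  rw [rs, Ideal.ofList_append, Ideal.ofList_singleton, Submodule.mem_sup]
  constructor
  · rintro ⟨g, hg, h, hh, rfl⟩
    rw [mem_ofList_X_finRange_iff] at hg
    rw [map_add, hg, zero_add]
    obtain ⟨c, rfl⟩ := Ideal.mem_span_singleton.mp hh
    rw [map_mul, MvPowerSeries.algebraMap_apply, MvPowerSeries.constantCoeff_C]
    exact Ideal.mul_mem_right _ _ (Ideal.mem_span_singleton_self _)
  · intro h
    obtain ⟨c, hc⟩ := Ideal.mem_span_singleton.mp h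
    refine ⟨f - algebraMap R _ ϖ * algebraMap R _ c, ?_, algebraMap R _ ϖ * algebraMap R _ c, ?_, by ring⟩
    · rw [mem_ofList_X_finRange_iff, map_sub, map_mul, MvPowerSeries.algebraMap_apply,
        MvPowerSeries.algebraMap_apply, MvPowerSeries.constantCoeff_C]
      simp [hc]
    · exact Ideal.mul_mem_right _ _ (Ideal.mem_span_singleton_self _)

theorem ofList_rs_eq_maximalIdeal [IsLocalRing R] {ϖ : R}
    (hϖ : IsLocalRing.maximalIdeal R = Ideal.span {ϖ}) :
    Ideal.ofList (rs r ϖ) = IsLocalRing.maximalIdeal (MvPowerSeries (Fin r) R) := by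
  ext f
  rw [mem_ofList_rs_iff, ← hϖ, IsLocalRing.mem_maximalIdeal, IsLocalRing.mem_maximalIdeal,
    mem_nonunits_iff, mem_nonunits_iff, MvPowerSeries.isUnit_iff_constantCoeff]

theorem mem_maximalIdeal_of_mem_rs [IsLocalRing R] {ϖ : R}
    (hϖ : IsLocalRing.maximalIdeal R = Ideal.span {ϖ}) {x : MvPowerSeries (Fin r) R}
    (hx : x ∈ rs r ϖ) : x ∈ IsLocalRing.maximalIdeal (MvPowerSeries (Fin r) R) := by
  rw [← ofList_rs_eq_maximalIdeal hϖ]
  exact Ideal.subset_span hx

end Fin

end Fermat.Agent.Patching
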