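import Mathlib.RingTheory.Regular.ProjectiveDimension
import Mathlib.RingTheory.FiniteLength
import Mathlib.RingTheory.SimpleModule.Basic
import Mathlib.Algebra.Homology.ShortComplex.ModuleCat
import Fermat.Agent.Patching.RegularSeq

/-!
# Projective dimension of finite length modules
-/

set_option autoImplicit false
set_option linter.style.haveILetI false
set_option linter.unusedSectionVars false

namespace Fermat.Agent.Patching

open CategoryTheory IsLocalRing

theorem hasProjectiveDimensionLE_of_isFiniteLength {S : Type} [CommRing S] [IsLocalRing S] (n : ℕ)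
    (hk : HasProjectiveDimensionLE (ModuleCat.of S (S ⧸ maximalIdeal S)) n)
    {M : Type} [AddCommGroup M] [Module S M] (hM : IsFiniteLength S M) :
    HasProjectiveDimensionLE (ModuleCat.of S M) n := by
  induction hM with
  | @of_subsingleton M _ _ _ =>
    have h := (ModuleCat.isZero_of_subsingleton (ModuleCat.of S M)).hasProjectiveDimensionLT_zero
    exact hasProjectiveDimensionLT_of_ge _ 0 (n+1) (Nat.zero_le _)
  | @of_simple_quotient M _ _ N _ hN ih =>
    obtain ⟨I, hI, ⟨e⟩⟩ := isSimpleModule_iff_quot_maximal.mp (inferInstance : IsSimpleModule S (M ⧸ N))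
    obtain rfl : I = maximalIdeal S := IsLocalRing.eq_maximalIdeal hI
    haveI := ih
    haveI := hk
    have h3 : HasProjectiveDimensionLE (ModuleCat.of S (M ⧸ N)) n :=
      ModuleCat.hasProjectiveDimensionLE_of_linearEquiv (M := ModuleCat.of S (S ⧸ maximalIdeal S))
        (N := ModuleCat.of S (M ⧸ N)) e.symm n
    let C : ShortComplex (ModuleCat S) :=
      ShortComplex.mk (ModuleCat.ofHom N.subtype) (ModuleCat.ofHom N.mkQ) (by
        ext x; simp)
    have hC : C.ShortExact := by
      refine ModuleCat.shortComplex_shortExact C ?_ ?_ ?_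
      · exact LinearMap.exact_subtype_mkQ N
      · exact N.subtype_injective
      · exact N.mkQ_surjective
    exact hC.hasProjectiveDimensionLT_X₂ (n+1) ih h3

open RingTheory.Sequence in
theorem free_of_isWeaklyRegular {𝒪 : Type} [CommRing 𝒪] [IsDomain 𝒪] [IsDiscreteValuationRing 𝒪]
    {r : ℕ} {N : Type} [AddCommGroup N] [Module (MvPowerSeries (Fin r) 𝒪) N]
    [Module.Finite (MvPowerSeries (Fin r) 𝒪) N] [Nontrivial N]
    (l : List (MvPowerSeries (Fin r) 𝒪)) (hl : l.length = r + 1) (hreg : IsWeaklyRegular N l)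
    (hmem : ∀ x ∈ l, x ∈ maximalIdeal (MvPowerSeries (Fin r) 𝒪))
    (hfl : IsFiniteLength (MvPowerSeries (Fin r) 𝒪)
      (N ⧸ (Ideal.ofList l • ⊤ : Submodule (MvPowerSeries (Fin r) 𝒪) N))) :
    Module.Free (MvPowerSeries (Fin r) 𝒪) N := by
  obtain ⟨ϖ, hϖ⟩ := IsDiscreteValuationRing.exists_irreducible 𝒪
  have hmax : maximalIdeal 𝒪 = Ideal.span {ϖ} := hϖ.maximalIdeal_eq
  have hreg' : IsRegular (MvPowerSeries (Fin r) 𝒪) (rs r ϖ) :=
    RingTheory.Sequence.IsRegular.of_isWeaklyRegular_of_mem_maximalIdeal _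
      (fun x hx => mem_maximalIdeal_of_mem_rs hmax hx) (isWeaklyRegular_rs hϖ.ne_zero)
  have hk0 := ModuleCat.projectiveDimension_quotient_eq_length.{0,0} (rs r ϖ) hreg'
  rw [length_rs] at hk0
  have hk : HasProjectiveDimensionLE (ModuleCat.of (MvPowerSeries (Fin r) 𝒪)
      (MvPowerSeries (Fin r) 𝒪 ⧸ maximalIdeal (MvPowerSeries (Fin r) 𝒪))) (r + 1) := by
    haveI : HasProjectiveDimensionLE (ModuleCat.of (MvPowerSeries (Fin r) 𝒪)
      (Shrink.{0} (MvPowerSeries (Fin r) 𝒪 ⧸ Ideal.ofList (rs r ϖ)))) (r + 1) := by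
      rw [← projectiveDimension_le_iff, hk0]
    exact ModuleCat.hasProjectiveDimensionLE_of_linearEquiv (M := ModuleCat.of (MvPowerSeries (Fin r) 𝒪)
      (Shrink.{0} (MvPowerSeries (Fin r) 𝒪 ⧸ Ideal.ofList (rs r ϖ))))
      (N := ModuleCat.of (MvPowerSeries (Fin r) 𝒪)
      (MvPowerSeries (Fin r) 𝒪 ⧸ maximalIdeal (MvPowerSeries (Fin r) 𝒪)))
      ((Shrink.linearEquiv _ _).trans (Submodule.quotEquivOfEq _ _ (ofList_rs_eq_maximalIdeal hmax)))
      (r + 1)
  have h1 := hasProjectiveDimensionLE_of_isFiniteLength (r + 1) hk hfl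
  have h2 := ModuleCat.projectiveDimension_quotient_eq_add_length_of_isWeaklyRegular
    (ModuleCat.of (MvPowerSeries (Fin r) 𝒪) N) l hreg hmem
  rw [← projectiveDimension_le_iff] at h1
  rw [hl] at h2
  have h3 : projectiveDimension (ModuleCat.of (MvPowerSeries (Fin r) 𝒪) N) + ((r + 1 : ℕ) : WithBot ℕ∞)
      ≤ 0 + ((r + 1 : ℕ) : WithBot ℕ∞) := by
    rw [zero_add]
    exact (le_of_eq h2.symm).trans h1
  have h4 : projectiveDimension (ModuleCat.of (MvPowerSeries (Fin r) 𝒪) N) ≤ 0 := by
    rwa [ENat.WithBot.add_le_add_natCast_right_iff] at h3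
  have h5 : Projective (ModuleCat.of (MvPowerSeries (Fin r) 𝒪) N) := by
    rw [projective_iff_hasProjectiveDimensionLT_one]
    have := (projectiveDimension_le_iff (ModuleCat.of (MvPowerSeries (Fin r) 𝒪) N) 0).mp (by exact_mod_cast h4)
    exact this
  have h6 : Module.Projective (MvPowerSeries (Fin r) 𝒪) N :=
    (IsProjective.iff_projective N).mpr h5
  exact Module.free_of_flat_of_isLocalRing

end Fermat.Agent.Patching
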